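import Mathlib
import Fermat.Prelude.Def_EllipticCurve_FrobeniusTrace
import Fermat.Agent.S55.Bridge.H959.Restrict
import Fermat.Agent.Lib.Cheb.H281.FrobGen

/-!
# S56 / LOC-TAME (helper606), part (c) GEN: decomposition groups are generated by Frobenius
and inertia, modulo any finite level

`A` a valuation subring of `ℚ̄` over a prime `q`, `φ` a Frobenius element at `A`
(`A.IsFrobeniusAt φ q`), `F/ℚ` a finite subextension of `ℚ̄`.  Then every `σ` in the
decomposition group `D_A` agrees on `F` with `φ ^ n * ι` for some `n : ℕ` and some `ι` in the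
inertia group `I_A` (Prelude `inertiaSubgroupIn`).

Main results (namespace `Fermat.Agent.S56.H606`):
* `frobenius_pow_sub_pow_mem_nonunits` : `φ ^ n` is `x ↦ x ^ (q ^ n)` modulo the maximal ideal;
* `exists_pow_congr_of_mem_decomposition` : every `σ ∈ D_A` is `x ↦ x ^ (q ^ n)` modulo the
  maximal ideal on the integers of a finite normal `F` (residue fields at finite level are
  finite);
* `exists_inertia_congr` : an element of `D_A` acting trivially modulo the maximal ideal on the
  integers of `F` agrees on `F` with an element of `I_A`;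
* `exists_frobenius_pow_mul_inertia` : the statement above;
* `map_mem_decomposition_eq` : for a homomorphism `f` on `G_ℚ` of finite level,
  `f σ = f φ ^ n * f ι`.
-/

set_option autoImplicit false
set_option linter.style.haveILetI false

open scoped Pointwise NumberField
open IntermediateField

namespace Fermat.Agent.S56.H606

open Fermat.Agent.S54 Fermat.Agent.S55.Bridge Fermat.Agent.S55.Bridge.H959

attribute [local instance] isAlgebraic_Qbar isGalois_Qbar

variable (A : ValuationSubring Qb)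

/-! ## 1. Frobenius powers -/

/-- Congruence modulo the maximal ideal in terms of residues. -/
theorem sub_mem_nonunits_iff_residue_eq {a b : Qb} (ha : a ∈ A) (hb : b ∈ A) :
    a - b ∈ A.nonunits ↔ IsLocalRing.residue A ⟨a, ha⟩ = IsLocalRing.residue A ⟨b, hb⟩ := by
  rw [← sub_eq_zero, ← map_sub, IsLocalRing.residue_eq_zero_iff,
    ValuationSubring.valuation_lt_one_iff, ValuationSubring.mem_nonunits_iff]
  rfl

/-- Elements of the decomposition group preserve `A`. -/
theorem apply_mem_of_mem_decomposition {σ : GQ} (hσ : σ ∈ A.decompositionSubgroup ℚ) {x : Qb}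
    (hx : x ∈ A) : σ x ∈ A :=
  ((mem_decomposition_iff A σ).mp hσ x).mpr hx

/-- The `n`-th power of a Frobenius element acts as `x ↦ x ^ (q ^ n)` on the residue field. -/
theorem frobenius_pow_smul_residue {q : ℕ} {φ : GQ} (hφ : A.IsFrobeniusAt φ q) (n : ℕ)
    (x : IsLocalRing.ResidueField A) :
    ((⟨φ, hφ.mem_decompositionSubgroup⟩ : A.decompositionSubgroup ℚ) ^ n) • x = x ^ (q ^ n) := by
  induction n generalizing x with
  | zero => simp
  | succ n ih =>
    rw [pow_succ, mul_smul, hφ.smul_residue_eq, ih, ← pow_mul, pow_succ, mul_comm]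

/-- The `n`-th power of a Frobenius element is `x ↦ x ^ (q ^ n)` modulo the maximal ideal. -/
theorem frobenius_pow_sub_pow_mem_nonunits {q : ℕ} {φ : GQ} (hφ : A.IsFrobeniusAt φ q) (n : ℕ)
    {x : Qb} (hx : x ∈ A) : (φ ^ n) x - x ^ (q ^ n) ∈ A.nonunits := by
  have hD : φ ^ n ∈ A.decompositionSubgroup ℚ := pow_mem hφ.mem_decompositionSubgroup n
  rw [sub_mem_nonunits_iff_residue_eq A (apply_mem_of_mem_decomposition A hD hx)
    (pow_mem hx _)]
  have key := frobenius_pow_smul_residue A hφ n (IsLocalRing.residue A ⟨x, hx⟩)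
  rw [← IsLocalRing.ResidueField.residue_smul] at key
  rw [← map_pow] at key
  exact key

/-! ## 2. Finite level: every element of `D_A` is a Frobenius power modulo the maximal ideal -/

section finiteLevel

variable (F : IntermediateField ℚ Qb) [FiniteDimensional ℚ F]

/-- The inclusion of the ring of integers of `F` into `ℚ̄`. -/
noncomputable def intIncl : 𝓞 F →+* Qb :=
  (algebraMap F Qb).comp (algebraMap (𝓞 F) F)

omit [FiniteDimensional ℚ F] in
theorem intIncl_apply (x : 𝓞 F) : intIncl F x = ((x : F) : Qb) := rfl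

omit [FiniteDimensional ℚ F] in
theorem isIntegral_intIncl (x : 𝓞 F) : IsIntegral ℤ (intIncl F x) :=
  (NumberField.RingOfIntegers.isIntegral_coe x).map (IsScalarTower.toAlgHom ℤ F Qb)

omit [FiniteDimensional ℚ F] in
theorem intIncl_mem (x : 𝓞 F) : intIncl F x ∈ A :=
  isIntegral_mem_valuationSubring A (isIntegral_intIncl F x)

omit [FiniteDimensional ℚ F] in
/-- Every integral element of `F` comes from the ring of integers. -/
theorem exists_intIncl_eq {x : Qb} (hxF : x ∈ F) (hx : IsIntegral ℤ x) :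
    ∃ X : 𝓞 F, intIncl F X = x :=
  ⟨⟨⟨x, hxF⟩, (isIntegral_algebraMap_iff (algebraMap F Qb).injective).mp hx⟩, rfl⟩

/-- The inclusion of the ring of integers of `F` into `A`. -/
noncomputable def intInclA : 𝓞 F →+* A :=
  RingHom.codRestrict (intIncl F) A (intIncl_mem A F)

/-- The prime of the ring of integers of `F` below `A`. -/
noncomputable def primeAt : Ideal (𝓞 F) :=
  Ideal.comap (intInclA A F) (IsLocalRing.maximalIdeal A)

omit [FiniteDimensional ℚ F] in
theorem mem_primeAt (x : 𝓞 F) : x ∈ primeAt A F ↔ intIncl F x ∈ A.nonunits := by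
  rw [primeAt, Ideal.mem_comap, ValuationSubring.valuation_lt_one_iff,
    ValuationSubring.mem_nonunits_iff]
  rfl

omit [FiniteDimensional ℚ F] in
theorem primeAt_isPrime : (primeAt A F).IsPrime :=
  Ideal.comap_isPrime _ _

variable {A} {q : ℕ}

omit [FiniteDimensional ℚ F] in
theorem natCast_mem_primeAt (hA : A.LiesOverPrime q) : ((q : ℕ) : 𝓞 F) ∈ primeAt A F := by
  rw [mem_primeAt, map_natCast]
  exact hA

omit [FiniteDimensional ℚ F] in
theorem primeAt_ne_bot (hq : q.Prime) (hA : A.LiesOverPrime q) : primeAt A F ≠ ⊥ := by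
  intro h
  have h1 := natCast_mem_primeAt F hA
  rw [h, Ideal.mem_bot] at h1
  exact hq.ne_zero (Nat.cast_eq_zero.mp h1)

/-- The residue field at finite level is finite. -/
theorem finite_quotient_primeAt (hq : q.Prime) (hA : A.LiesOverPrime q) :
    Finite (𝓞 F ⧸ primeAt A F) := by
  haveI : NumberField F := ⟨⟩
  exact Ideal.finiteQuotientOfFreeOfNeBot _ (primeAt_ne_bot F hq hA)

omit [FiniteDimensional ℚ F] in
/-- The prime number below `primeAt A F`. -/
theorem under_primeAt (hq : q.Prime) (hA : A.LiesOverPrime q) :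
    (primeAt A F).under ℤ = Ideal.span {(q : ℤ)} := by
  haveI := primeAt_isPrime A F
  have hmax : (Ideal.span {(q : ℤ)}).IsMaximal :=
    PrincipalIdealRing.isMaximal_of_irreducible
      (Nat.prime_iff_prime_int.mp hq).irreducible
  symm
  apply hmax.eq_of_le
  · exact (Ideal.IsPrime.under ℤ (primeAt A F)).ne_top
  · rw [Ideal.span_singleton_le_iff_mem, Ideal.mem_comap]
    have := natCast_mem_primeAt F hA
    simpa using this

omit [FiniteDimensional ℚ F] in
theorem card_quotient_under_primeAt (hq : q.Prime) (hA : A.LiesOverPrime q) :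
    Nat.card (ℤ ⧸ (primeAt A F).under ℤ) = q := by
  rw [under_primeAt F hq hA, Nat.card_congr (Int.quotientSpanNatEquivZMod q).toEquiv,
    Nat.card_zmod]

variable [Normal ℚ F]

omit [FiniteDimensional ℚ F] in
/-- The action of `Gal(F/ℚ)` on the integers of `F` is compatible with restriction. -/
theorem intIncl_restrict_smul (σ : GQ) (x : 𝓞 F) :
    intIncl F (AlgEquiv.restrictNormalHom F σ • x) = σ (intIncl F x) := by
  rw [intIncl_apply, intIncl_apply]
  exact restrict_apply F σ (x : F)

omit [FiniteDimensional ℚ F] in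
/-- Restrictions of elements of `D_A` stabilise the prime below `A`. -/
theorem restrict_mem_stabilizer_primeAt {σ : GQ} (hσ : σ ∈ A.decompositionSubgroup ℚ) :
    AlgEquiv.restrictNormalHom F σ ∈ MulAction.stabilizer (F ≃ₐ[ℚ] F) (primeAt A F) := by
  rw [MulAction.mem_stabilizer_iff]
  ext x
  rw [Ideal.mem_pointwise_smul_iff_inv_smul_mem, mem_primeAt, mem_primeAt, ← map_inv,
    intIncl_restrict_smul]
  exact apply_mem_nonunits_iff A σ⁻¹ (Subgroup.inv_mem _ hσ) _

/-- **Finite level.**  Every element of `D_A` acts as `x ↦ x ^ (q ^ n)` modulo the maximal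
ideal on the integers of a finite normal extension `F/ℚ`. -/
theorem exists_pow_congr_of_mem_decomposition (hq : q.Prime) (hA : A.LiesOverPrime q)
    {σ : GQ} (hσ : σ ∈ A.decompositionSubgroup ℚ) :
    ∃ n : ℕ, ∀ x ∈ F, IsIntegral ℤ x → σ x - x ^ (q ^ n) ∈ A.nonunits := by
  haveI := primeAt_isPrime A F
  haveI := finite_quotient_primeAt F hq hA
  obtain ⟨n, hn⟩ := Fermat.Agent.Lib.Cheb.H281.exists_pow_of_mem_stabilizer (R := ℤ)
    (restrict_mem_stabilizer_primeAt F hσ)
  rw [card_quotient_under_primeAt F hq hA] at hn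
  refine ⟨n, fun x hxF hx => ?_⟩
  obtain ⟨X, rfl⟩ := exists_intIncl_eq F hxF hx
  have h1 : Ideal.Quotient.mk (primeAt A F) (AlgEquiv.restrictNormalHom F σ • X) =
      Ideal.Quotient.mk (primeAt A F) (X ^ (q ^ n)) := by
    rw [map_pow]
    exact hn X
  rw [Ideal.Quotient.eq, mem_primeAt, map_sub, intIncl_restrict_smul, map_pow] at h1
  exact h1

end finiteLevel

/-! ## 3. Lifting triviality on a finite-level residue field to inertia -/

section lift

variable {A} {q : ℕ} (F : IntermediateField ℚ Qb)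

/-- An element of `D_A` acting trivially modulo the maximal ideal on the integers of `F` agrees
on `F` with an element of the inertia group `I_A`. -/
theorem exists_inertia_congr (hq : q.Prime) (hA : A.LiesOverPrime q) {g : GQ}
    (hg : g ∈ A.decompositionSubgroup ℚ)
    (h : ∀ x ∈ F, IsIntegral ℤ x → g x - x ∈ A.nonunits) :
    ∃ ι ∈ A.inertiaSubgroupIn ℚ, ∀ x ∈ F, ι x = g x := by
  haveI := primeBelow_isPrime A
  have hgQ : g • primeBelow A = primeBelow A := by
    rw [← primeBelow_smul]
    congr 1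
  obtain ⟨s, hs, hsQ, hcong⟩ := exists_mem_stabilizer_of_fixes F.fixingSubgroup
    (InfiniteGalois.fixingSubgroup_isClosed F) (primeBelow A) g hgQ (by
      intro a ha
      have haF : (a : Qb) ∈ F :=
        mem_of_fixed F a (fun k hk => congrArg Subtype.val (ha k hk))
      rw [mem_primeBelow]
      exact h a haF a.2)
  have hsD : s ∈ A.decompositionSubgroup ℚ :=
    mem_decomposition_of_smul_primeBelow A q hq hA s hsQ
  have hinv : ∀ y : Qb, s (s⁻¹ y) = y := fun y => by
    show (s * s⁻¹) y = y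
    rw [mul_inv_cancel]
    rfl
  refine ⟨g * s⁻¹, ?_, ?_⟩
  · refine mem_inertia_of_integral A q hq hA (g * s⁻¹)
      (Subgroup.mul_mem _ hg (Subgroup.inv_mem _ hsD)) ?_
    intro b hb
    have h1 := hcong ⟨s⁻¹ b, hb.map s⁻¹⟩
    rw [mem_primeBelow] at h1
    have h2 : ((s • (⟨s⁻¹ b, hb.map s⁻¹⟩ : Zb) - g • (⟨s⁻¹ b, hb.map s⁻¹⟩ : Zb) : Zb) : Qb)
        = -((g * s⁻¹) b - b) := by
      show s (s⁻¹ b) - g (s⁻¹ b) = -((g * s⁻¹) b - b)
      rw [hinv, neg_sub]
      rfl
    rw [h2] at h1
    rw [ValuationSubring.mem_nonunits_iff, Valuation.map_neg] at h1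
    rw [ValuationSubring.mem_nonunits_iff]
    exact h1
  · intro x hx
    have hsx : s x = x := hs ⟨x, hx⟩
    show g (s⁻¹ x) = g x
    congr 1
    conv_lhs => rw [← hsx]
    show (s⁻¹ * s) x = x
    rw [inv_mul_cancel]
    rfl

end lift

/-! ## 4. Generation -/

section gen

variable {A} {q : ℕ}

/-- **LOC-TAME (c), GEN.**  Modulo any finite level, the decomposition group at `A` is generated
by a Frobenius element and the inertia group: every `σ ∈ D_A` agrees on the finite extension
`F/ℚ` with `φ ^ n * ι` for some `n : ℕ` and `ι ∈ I_A`. -/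
theorem exists_frobenius_pow_mul_inertia (hq : q.Prime) (hA : A.LiesOverPrime q)
    (F : IntermediateField ℚ Qb) [FiniteDimensional ℚ F] {φ : GQ} (hφ : A.IsFrobeniusAt φ q)
    {σ : GQ} (hσ : σ ∈ A.decompositionSubgroup ℚ) :
    ∃ (n : ℕ) (ι : GQ), ι ∈ A.inertiaSubgroupIn ℚ ∧ ∀ x ∈ F, σ x = (φ ^ n * ι) x := by
  -- enlarge `F` to its normal closure
  have hFF' : F ≤ IntermediateField.normalClosure ℚ F Qb := IntermediateField.le_normalClosure F
  haveI : Normal ℚ (IntermediateField.normalClosure ℚ F Qb) := normalClosure.normal ℚ F Qb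
  haveI : FiniteDimensional ℚ (IntermediateField.normalClosure ℚ F Qb) :=
    normalClosure.is_finiteDimensional ℚ F Qb
  obtain ⟨n, hn⟩ := exists_pow_congr_of_mem_decomposition
    (IntermediateField.normalClosure ℚ F Qb) hq hA hσ
  have hφn : φ ^ n ∈ A.decompositionSubgroup ℚ := pow_mem hφ.mem_decompositionSubgroup n
  have hφninv : (φ ^ n)⁻¹ ∈ A.decompositionSubgroup ℚ := Subgroup.inv_mem _ hφn
  have hinv : ∀ y : Qb, (φ ^ n) ((φ ^ n)⁻¹ y) = y := fun y => by
    show ((φ ^ n) * (φ ^ n)⁻¹) y = y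
    rw [mul_inv_cancel]
    rfl
  have hinv' : ∀ y : Qb, (φ ^ n)⁻¹ ((φ ^ n) y) = y := fun y => by
    show ((φ ^ n)⁻¹ * (φ ^ n)) y = y
    rw [inv_mul_cancel]
    rfl
  obtain ⟨ι, hι, hιg⟩ := exists_inertia_congr (IntermediateField.normalClosure ℚ F Qb) hq hA
    (g := (φ ^ n)⁻¹ * σ) (Subgroup.mul_mem _ hφninv hσ) (by
      intro x hxF hx
      have hxA : x ∈ A := isIntegral_mem_valuationSubring A hx
      have h1 : σ x - (φ ^ n) x ∈ A.nonunits := by
        have h2 := hn x hxF hx
        have h3 := frobenius_pow_sub_pow_mem_nonunits A hφ n hxA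
        rw [ValuationSubring.mem_nonunits_iff] at h2 h3 ⊢
        have h4 : σ x - (φ ^ n) x = (σ x - x ^ q ^ n) - ((φ ^ n) x - x ^ q ^ n) := by ring
        rw [h4]
        exact lt_of_le_of_lt (A.valuation.map_sub _ _) (max_lt h2 h3)
      have h5 : ((φ ^ n)⁻¹ * σ) x - x = (φ ^ n)⁻¹ (σ x - (φ ^ n) x) := by
        rw [map_sub, hinv']
        rfl
      rw [h5, apply_mem_nonunits_iff A _ hφninv]
      exact h1)
  refine ⟨n, ι, hι, fun x hx => ?_⟩
  have h1 := hιg x (hFF' hx)
  show σ x = (φ ^ n) (ι x)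
  rw [h1]
  show σ x = (φ ^ n) ((φ ^ n)⁻¹ (σ x))
  rw [hinv]

/-- **LOC-TAME (c), GEN, for homomorphisms of finite level.**  If `f` is trivial on the subgroup
fixing a finite extension `E/ℚ`, then `f σ = f φ ^ n * f ι` with `ι ∈ I_A`, for every
`σ ∈ D_A`. -/
theorem map_mem_decomposition_eq {G : Type*} [Group G] (f : GQ →* G) (hq : q.Prime)
    (hA : A.LiesOverPrime q) (E : IntermediateField ℚ Qb) [FiniteDimensional ℚ E]
    (hf : ∀ τ : GQ, (∀ x ∈ E, τ x = x) → f τ = 1) {φ : GQ} (hφ : A.IsFrobeniusAt φ q)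
    {σ : GQ} (hσ : σ ∈ A.decompositionSubgroup ℚ) :
    ∃ (n : ℕ) (ι : GQ), ι ∈ A.inertiaSubgroupIn ℚ ∧ f σ = f φ ^ n * f ι := by
  obtain ⟨n, ι, hι, h⟩ := exists_frobenius_pow_mul_inertia hq hA E hφ hσ
  refine ⟨n, ι, hι, ?_⟩
  have h1 : f ((φ ^ n * ι)⁻¹ * σ) = 1 := by
    apply hf
    intro x hx
    show (φ ^ n * ι)⁻¹ (σ x) = x
    rw [h x hx]
    show ((φ ^ n * ι)⁻¹ * (φ ^ n * ι)) x = x
    rw [inv_mul_cancel]
    rfl
  rw [map_mul, map_inv, inv_mul_eq_one] at h1
  rw [← h1, map_mul, map_pow]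

end gen

end Fermat.Agent.S56.H606
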