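import Fermat.Agent.S56.H606.UnrBound
import Fermat.Agent.S56.H794.LocMinSpec

/-!
# S56 / LOC-MIN (helper606): the frozen leaf `H716.LocMinStatement`

Assembly of
* LOC-MIN-A (helper794, `H794/LocMinA.lean`): a tangent cocycle whose lift is unipotent on
  inertia at `v ≠ p` is a coboundary on the inertia group of every place `P ∣ v` at which `ρ̄` is
  ramified;
* LOC-MIN-B (`H606/UnrBound.lean`): cocycles which are coboundaries on `I_P` span, modulo
  coboundaries on `D_P`, a space of dimension at most `h⁰(D_P, ad⁰ρ̄)`;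
* existence of Frobenius elements at `P` and conjugacy of the places over `v`
  (`Lib/Cheb/H476`).
-/

set_option autoImplicit false

open Polynomial IsLocalRing

noncomputable section

namespace Fermat.Agent.S56.H606

open Fermat.Agent.S56 Fermat.Agent.S56.H716

/-- **LOC-MIN** for one place, over any field `k` of odd characteristic `p`: if `ρ̄` is ramified
at the place `P ∣ v`, `v ≠ p`, the unipotent-on-inertia lifts satisfy the local bound with defect
`0`. -/
theorem localBoundAt_unipotent {k : Type} [Field k] (ρbar : ResidualGaloisRep k) {p : ℕ}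
    (hp : p.Prime) (hp2 : p ≠ 2) (hpk : (p : k) = 0) {v : ℕ} (hv : v.Prime) (hvp : v ≠ p)
    {P : ValuationSubring Qb} (hP : P.LiesOverPrime v)
    (hram : ∃ τ ∈ P.inertiaSubgroupIn ℚ, ρbar.ρ τ ≠ 1)
    (Ty : GaloisRepAdic (DualNumber k) → Prop)
    (hTy : ∀ ρ', Ty ρ' → ρ'.IsUnipotentOnInertiaAt v) :
    LocalBoundAt ρbar P Ty 0 := by
  obtain ⟨φ, hφ, -⟩ := Fermat.Agent.Lib.Cheb.H476.exists_frobenius_at v hv P hP
  apply localBoundAt_zero_of_frobenius hv hP hφ
  rintro c hc ⟨ρ', hlift, hρ'⟩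
  obtain ⟨m, -, hm⟩ := Fermat.Agent.S56.H794.exists_coboundary_on_inertia_of_unipotent
    hp hp2 hpk hc hlift hv hvp (hTy ρ' hρ') hP hram
  exact ⟨m, hm⟩

/-- A residual representation ramified at `v` is ramified at every place over `v`. -/
theorem exists_ramified_of_not_isUnramifiedAt {k : Type} [Field k] (ρbar : ResidualGaloisRep k)
    {v : ℕ} (hv : v.Prime) (hnr : ¬ ρbar.IsUnramifiedAt v) {P : ValuationSubring Qb}
    (hP : P.LiesOverPrime v) : ∃ τ ∈ P.inertiaSubgroupIn ℚ, ρbar.ρ τ ≠ 1 := by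
  by_contra hcon
  have hcon' : ∀ τ ∈ P.inertiaSubgroupIn ℚ, ρbar.ρ τ = 1 := fun τ hτ => by
    by_contra h
    exact hcon ⟨τ, hτ, h⟩
  exact hnr (fun A hA σ hσ =>
    Fermat.Agent.Lib.Cheb.H476.map_inertia_eq_one_of_liesOver ρbar.ρ hv hP hA hcon' σ hσ)

/-- **LOC-MIN-B**: the leaf `H794.LocMinBStatement` of helper794's interface. -/
theorem locMinB : Fermat.Agent.S56.H794.LocMinBStatement := by
  intro k _ ρbar q hq P hP
  obtain ⟨φ, hφ, -⟩ := Fermat.Agent.Lib.Cheb.H476.exists_frobenius_at q hq P hP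
  exact exists_unramified_space hq hP hφ

/-- **LOC-MIN**: the frozen leaf `H716.LocMinStatement`. -/
theorem locMin : LocMinStatement := by
  intro 𝒪 _ _ _ _ _ p ρbar S Smin hyp v hv hvp P hP
  have hvprime : v.Prime := hyp.hS v (hyp.hSmin hv)
  have hpk : (p : ResidueField 𝒪) = 0 := by
    have h1 : residue 𝒪 (p : 𝒪) = 0 := (residue_eq_zero_iff _).mpr hyp.hp𝒪
    rwa [map_natCast] at h1
  exact localBoundAt_unipotent ρbar hyp.hp hyp.hp2 hpk hvprime hvp hP
    (exists_ramified_of_not_isUnramifiedAt ρbar hvprime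
      ((hyp.hmin v hvprime hvp).mp hv) hP) _ (fun _ h => h.2)

end Fermat.Agent.S56.H606

end
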