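import Fermat.Agent.S56.H716.SBSpec
import Fermat.Agent.S56.H606.Gen

/-!
# S56 / LOC-MIN-B (helper606): the unramified local bound

`ρbar : ResidualGaloisRep k`, `P` a valuation subring of `ℚ̄` over a prime `q`, `φ` a Frobenius
element at `P`.  If every ad⁰-cocycle of local type `Ty` is a coboundary on the inertia group
`I_P`, then the local tangent bound with defect `0` holds at `P`
(`H716.LocalBoundAt ρbar P Ty 0`): the classes on `D_P` of these cocycles are unramified, and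
`dim H¹_ur(D_P, ad⁰ρ̄) = dim coker(φ − 1 | (ad⁰)^{I_P}) = dim ker(φ − 1 | (ad⁰)^{I_P}) = h⁰(D_P)`.

The structure of the decomposition group enters through the landed
`exists_frobenius_pow_mul_inertia` (`H606/Gen.lean`): modulo any finite level, `D_P = ⟨φ⟩ I_P`.

Main results (namespace `Fermat.Agent.S56.H606`):
* `isAdCocycle_cob`, `isAdCocycle_sub`, … : the ad⁰-cocycles form a `k`-space containing the
  coboundaries;
* `apply_frobenius_mem_adInv` : an ad⁰-cocycle vanishing on `I_P` has `c φ ∈ (ad⁰)^{I_P}`;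
* `eq_zero_on_decomposition` : an ad⁰-cocycle vanishing on `I_P` and at `φ` vanishes on `D_P`;
* `mem_adInv_decomposition` : `(ad⁰)^{I_P} ∩ ker(φ − 1) = (ad⁰)^{D_P}`;
* `exists_unramified_space`, `localBoundAt_zero_of_frobenius` : the local bound.
-/

set_option autoImplicit false
set_option linter.style.haveILetI false

open Polynomial

noncomputable section

namespace Fermat.Agent.S56.H606

open Fermat.Agent.S56 Fermat.Agent.S56.H716

variable {k : Type} [Field k] (ρbar : ResidualGaloisRep k)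

/-! ## 1. Conjugation and coboundaries -/

theorem rho_mul_inv (σ : GQ) : ρbar.ρ σ * ρbar.ρ σ⁻¹ = 1 := by
  rw [← map_mul, mul_inv_cancel, map_one]

theorem rho_inv_mul (σ : GQ) : ρbar.ρ σ⁻¹ * ρbar.ρ σ = 1 := by
  rw [← map_mul, inv_mul_cancel, map_one]

/-- Conjugation by a product. -/
theorem conj_mul (σ τ : GQ) (m : Module.End k ρbar.V) :
    ρbar.ρ (σ * τ) * m * ρbar.ρ (σ * τ)⁻¹ =
      ρbar.ρ σ * (ρbar.ρ τ * m * ρbar.ρ τ⁻¹) * ρbar.ρ σ⁻¹ := by
  rw [mul_inv_rev, map_mul, map_mul]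
  simp only [mul_assoc]

/-- Conjugation by the identity. -/
theorem conj_one (m : Module.End k ρbar.V) :
    ρbar.ρ (1 : GQ) * m * ρbar.ρ (1 : GQ)⁻¹ = m := by
  rw [inv_one, map_one, one_mul, mul_one]

/-- Conjugation preserves the trace. -/
theorem trace_conj (σ : GQ) (m : Module.End k ρbar.V) :
    LinearMap.trace k ρbar.V (ρbar.ρ σ * m * ρbar.ρ σ⁻¹) = LinearMap.trace k ρbar.V m := by
  rw [LinearMap.trace_mul_comm, ← mul_assoc, rho_inv_mul, one_mul]

/-- Conjugation of a difference. -/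
theorem conj_sub (σ : GQ) (a b : Module.End k ρbar.V) :
    ρbar.ρ σ * (a - b) * ρbar.ρ σ⁻¹ =
      ρbar.ρ σ * a * ρbar.ρ σ⁻¹ - ρbar.ρ σ * b * ρbar.ρ σ⁻¹ := by
  rw [mul_sub, sub_mul]

/-- Conjugation of a sum. -/
theorem conj_add (σ : GQ) (a b : Module.End k ρbar.V) :
    ρbar.ρ σ * (a + b) * ρbar.ρ σ⁻¹ =
      ρbar.ρ σ * a * ρbar.ρ σ⁻¹ + ρbar.ρ σ * b * ρbar.ρ σ⁻¹ := by
  rw [mul_add, add_mul]

/-- Conjugation of zero. -/
theorem conj_zero (σ : GQ) :
    ρbar.ρ σ * (0 : Module.End k ρbar.V) * ρbar.ρ σ⁻¹ = 0 := by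
  rw [mul_zero, zero_mul]

/-- Conjugation of a scalar multiple. -/
theorem conj_smul (σ : GQ) (r : k) (a : Module.End k ρbar.V) :
    ρbar.ρ σ * (r • a) * ρbar.ρ σ⁻¹ = r • (ρbar.ρ σ * a * ρbar.ρ σ⁻¹) := by
  rw [mul_smul_comm, smul_mul_assoc]

/-- The coboundary of `m`. -/
def cob (m : Module.End k ρbar.V) : GQ → Module.End k ρbar.V :=
  fun σ => ρbar.ρ σ * m * ρbar.ρ σ⁻¹ - m

theorem cob_apply (m : Module.End k ρbar.V) (σ : GQ) :
    cob ρbar m σ = ρbar.ρ σ * m * ρbar.ρ σ⁻¹ - m := rfl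

/-- Coboundaries are ad⁰-cocycles. -/
theorem isAdCocycle_cob (m : Module.End k ρbar.V) : IsAdCocycle ρbar (cob ρbar m) := by
  refine ⟨fun σ => ?_, fun σ τ => ?_, ?_⟩
  · rw [cob_apply, map_sub, trace_conj, sub_self]
  · rw [cob_apply, cob_apply, cob_apply, conj_mul, conj_sub]
    abel
  · obtain ⟨L, hL, h⟩ := ρbar.factorsThroughFiniteLevel
    refine ⟨L, hL, fun σ τ hτ => ?_⟩
    rw [cob_apply, cob_apply, conj_mul, conj_of_eq_one ρbar (h τ hτ)]
where
  conj_of_eq_one (ρbar : ResidualGaloisRep k) {τ : GQ} (h : ρbar.ρ τ = 1)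
      {m : Module.End k ρbar.V} : ρbar.ρ τ * m * ρbar.ρ τ⁻¹ = m := by
    have h' : ρbar.ρ τ⁻¹ = 1 := by
      have := rho_inv_mul ρbar τ
      rwa [h, mul_one] at this
    rw [h, h', one_mul, mul_one]

variable {ρbar}

theorem adCocycle_apply_one {c : GQ → Module.End k ρbar.V} (hc : IsAdCocycle ρbar c) :
    c 1 = 0 := by
  have h := hc.map_mul 1 1
  rw [mul_one, conj_one] at h
  exact left_eq_add.mp h

theorem isAdCocycle_zero : IsAdCocycle ρbar (0 : GQ → Module.End k ρbar.V) := by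
  refine ⟨fun σ => ?_, fun σ τ => ?_, ⟨⊥, inferInstance, fun σ τ _ => rfl⟩⟩
  · rw [Pi.zero_apply, map_zero]
  · rw [Pi.zero_apply, Pi.zero_apply, Pi.zero_apply, conj_zero, add_zero]

theorem isAdCocycle_add {c c' : GQ → Module.End k ρbar.V} (hc : IsAdCocycle ρbar c)
    (hc' : IsAdCocycle ρbar c') : IsAdCocycle ρbar (c + c') := by
  refine ⟨fun σ => ?_, fun σ τ => ?_, ?_⟩
  · rw [Pi.add_apply, map_add, hc.trace_eq_zero, hc'.trace_eq_zero, add_zero]
  · rw [Pi.add_apply, Pi.add_apply, Pi.add_apply, hc.map_mul, hc'.map_mul, conj_add]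
    abel
  · obtain ⟨L, hL, h⟩ := hc.level
    obtain ⟨L', hL', h'⟩ := hc'.level
    refine ⟨L ⊔ L', IntermediateField.finiteDimensional_sup L L', fun σ τ hτ => ?_⟩
    rw [Pi.add_apply, Pi.add_apply,
      h σ τ (fun x hx => hτ x ((le_sup_left : L ≤ L ⊔ L') hx)),
      h' σ τ (fun x hx => hτ x ((le_sup_right : L' ≤ L ⊔ L') hx))]

theorem isAdCocycle_smul {c : GQ → Module.End k ρbar.V} (hc : IsAdCocycle ρbar c) (r : k) :
    IsAdCocycle ρbar (r • c) := by
  refine ⟨fun σ => ?_, fun σ τ => ?_, ?_⟩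
  · rw [Pi.smul_apply, map_smul, hc.trace_eq_zero, smul_zero]
  · rw [Pi.smul_apply, Pi.smul_apply, Pi.smul_apply, hc.map_mul, conj_smul, smul_add]
  · obtain ⟨L, hL, h⟩ := hc.level
    refine ⟨L, hL, fun σ τ hτ => ?_⟩
    rw [Pi.smul_apply, Pi.smul_apply, h σ τ hτ]

theorem isAdCocycle_neg {c : GQ → Module.End k ρbar.V} (hc : IsAdCocycle ρbar c) :
    IsAdCocycle ρbar (-c) := by
  have := isAdCocycle_smul hc (-1 : k)
  rwa [neg_one_smul] at this

theorem isAdCocycle_sub {c c' : GQ → Module.End k ρbar.V} (hc : IsAdCocycle ρbar c)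
    (hc' : IsAdCocycle ρbar c') : IsAdCocycle ρbar (c - c') := by
  rw [sub_eq_add_neg]
  exact isAdCocycle_add hc (isAdCocycle_neg hc')

/-- The value of a cocycle at a power. -/
theorem adCocycle_apply_pow_eq_zero {c : GQ → Module.End k ρbar.V} (hc : IsAdCocycle ρbar c)
    {φ : GQ} (h : c φ = 0) (n : ℕ) : c (φ ^ n) = 0 := by
  induction n with
  | zero => rw [pow_zero, adCocycle_apply_one hc]
  | succ n ih => rw [pow_succ, hc.map_mul, ih, h, conj_zero, add_zero]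

/-! ## 2. Cocycles on the decomposition group -/

section decomp

open scoped Pointwise

variable (P : ValuationSubring Qb)

/-- The inertia group is normalised by the decomposition group. -/
theorem inv_conj_mem_inertia {φ ι : GQ} (hφ : φ ∈ P.decompositionSubgroup ℚ)
    (hι : ι ∈ P.inertiaSubgroupIn ℚ) : φ⁻¹ * ι * φ ∈ P.inertiaSubgroupIn ℚ := by
  have h := Fermat.Agent.S55.Bridge.conj_mem_inertiaSubgroupIn P φ⁻¹ ι hι
  have hP : φ⁻¹ • P = P := MulAction.mem_stabilizer_iff.mp (Subgroup.inv_mem _ hφ)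
  rw [hP, inv_inv] at h
  exact h

variable {P}

/-- An ad⁰-cocycle vanishing on `I_P` takes `I_P`-invariant values on `D_P`. -/
theorem conj_apply_eq_of_vanishes {c : GQ → Module.End k ρbar.V} (hc : IsAdCocycle ρbar c)
    (hI : ∀ ι ∈ P.inertiaSubgroupIn ℚ, c ι = 0) {φ : GQ}
    (hφ : φ ∈ P.decompositionSubgroup ℚ) {ι : GQ} (hι : ι ∈ P.inertiaSubgroupIn ℚ) :
    ρbar.ρ ι * c φ * ρbar.ρ ι⁻¹ = c φ := by
  have h1 : c (ι * φ) = ρbar.ρ ι * c φ * ρbar.ρ ι⁻¹ := by
    rw [hc.map_mul, hI ι hι, zero_add]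
  have h2 : ι * φ = φ * (φ⁻¹ * ι * φ) := by group
  have h3 : c (φ * (φ⁻¹ * ι * φ)) = c φ := by
    rw [hc.map_mul, hI _ (inv_conj_mem_inertia P hφ hι), conj_zero, add_zero]
  rw [← h1, h2, h3]

/-- An ad⁰-cocycle vanishing on `I_P` has `c φ ∈ H⁰(I_P, ad⁰ρ̄)` for `φ ∈ D_P`. -/
theorem apply_mem_adInv {c : GQ → Module.End k ρbar.V} (hc : IsAdCocycle ρbar c)
    (hI : ∀ ι ∈ P.inertiaSubgroupIn ℚ, c ι = 0) {φ : GQ}
    (hφ : φ ∈ P.decompositionSubgroup ℚ) : c φ ∈ adInv ρbar (P.inertiaSubgroupIn ℚ) :=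
  ⟨hc.trace_eq_zero φ, fun _ hι => conj_apply_eq_of_vanishes hc hI hφ hι⟩

/-- **Unramified cocycles are determined by their value at Frobenius.**  An ad⁰-cocycle
vanishing on `I_P` and at a Frobenius element `φ` vanishes on `D_P`. -/
theorem eq_zero_on_decomposition {q : ℕ} (hq : q.Prime) (hP : P.LiesOverPrime q) {φ : GQ}
    (hφ : P.IsFrobeniusAt φ q) {c : GQ → Module.End k ρbar.V} (hc : IsAdCocycle ρbar c)
    (hI : ∀ ι ∈ P.inertiaSubgroupIn ℚ, c ι = 0) (hcφ : c φ = 0) {σ : GQ}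
    (hσ : σ ∈ P.decompositionSubgroup ℚ) : c σ = 0 := by
  obtain ⟨L, hL, h⟩ := hc.level
  haveI := hL
  obtain ⟨n, ι, hι, hσL⟩ := exists_frobenius_pow_mul_inertia hq hP L hφ hσ
  have h1 : σ = (φ ^ n * ι) * ((φ ^ n * ι)⁻¹ * σ) := by group
  have h2 : ∀ x ∈ L, ((φ ^ n * ι)⁻¹ * σ) x = x := by
    intro x hx
    show (φ ^ n * ι)⁻¹ (σ x) = x
    rw [hσL x hx]
    show ((φ ^ n * ι)⁻¹ * (φ ^ n * ι)) x = x
    rw [inv_mul_cancel]
    rfl
  rw [h1, h _ _ h2, hc.map_mul, hI ι hι, conj_zero, add_zero,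
    adCocycle_apply_pow_eq_zero hc hcφ]

variable (ρbar) in
/-- The stabiliser of an endomorphism under the adjoint action. -/
def adStab (x : Module.End k ρbar.V) : Subgroup GQ where
  carrier := {σ | ρbar.ρ σ * x * ρbar.ρ σ⁻¹ = x}
  mul_mem' := fun {a b} ha hb => by
    show ρbar.ρ (a * b) * x * ρbar.ρ (a * b)⁻¹ = x
    rw [conj_mul, hb, ha]
  one_mem' := conj_one ρbar x
  inv_mem' := fun {a} ha => by
    show ρbar.ρ a⁻¹ * x * ρbar.ρ a⁻¹⁻¹ = x
    have h1 : ρbar.ρ a⁻¹ * (ρbar.ρ a * x * ρbar.ρ a⁻¹) * ρbar.ρ a⁻¹⁻¹ = x := by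
      rw [← conj_mul, inv_mul_cancel, conj_one]
    rw [ha] at h1
    exact h1

theorem mem_adStab {x : Module.End k ρbar.V} {σ : GQ} :
    σ ∈ adStab ρbar x ↔ ρbar.ρ σ * x * ρbar.ρ σ⁻¹ = x := Iff.rfl

/-- **Invariants.**  An endomorphism fixed by `I_P` and by a Frobenius element is fixed by
`D_P`. -/
theorem conj_eq_of_mem_decomposition {q : ℕ} (hq : q.Prime) (hP : P.LiesOverPrime q) {φ : GQ}
    (hφ : P.IsFrobeniusAt φ q) {x : Module.End k ρbar.V}
    (hI : ∀ ι ∈ P.inertiaSubgroupIn ℚ, ρbar.ρ ι * x * ρbar.ρ ι⁻¹ = x)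
    (hxφ : ρbar.ρ φ * x * ρbar.ρ φ⁻¹ = x) {σ : GQ}
    (hσ : σ ∈ P.decompositionSubgroup ℚ) : ρbar.ρ σ * x * ρbar.ρ σ⁻¹ = x := by
  obtain ⟨L, hL, h⟩ := ρbar.factorsThroughFiniteLevel
  haveI := hL
  obtain ⟨n, ι, hι, hσL⟩ := exists_frobenius_pow_mul_inertia hq hP L hφ hσ
  have h1 : σ = (φ ^ n * ι) * ((φ ^ n * ι)⁻¹ * σ) := by group
  have h2 : ∀ x ∈ L, ((φ ^ n * ι)⁻¹ * σ) x = x := by
    intro x hx
    show (φ ^ n * ι)⁻¹ (σ x) = x
    rw [hσL x hx]
    show ((φ ^ n * ι)⁻¹ * (φ ^ n * ι)) x = x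
    rw [inv_mul_cancel]
    rfl
  have h3 : (φ ^ n * ι)⁻¹ * σ ∈ adStab ρbar x := by
    rw [mem_adStab]
    exact isAdCocycle_cob.conj_of_eq_one ρbar (h _ h2)
  have h4 : φ ^ n * ι ∈ adStab ρbar x :=
    Subgroup.mul_mem _ (Subgroup.pow_mem _ (mem_adStab.mpr hxφ) n) (mem_adStab.mpr (hI ι hι))
  rw [← mem_adStab, h1]
  exact Subgroup.mul_mem _ h4 h3

end decomp

/-! ## 3. The local bound -/

section bound

variable (ρbar) (P : ValuationSubring Qb)

theorem cob_add (a b : Module.End k ρbar.V) : cob ρbar (a + b) = cob ρbar a + cob ρbar b := by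
  funext σ
  rw [Pi.add_apply, cob_apply, cob_apply, cob_apply, conj_add]
  abel

theorem cob_smul (r : k) (a : Module.End k ρbar.V) : cob ρbar (r • a) = r • cob ρbar a := by
  funext σ
  rw [Pi.smul_apply, cob_apply, cob_apply, conj_smul, smul_sub]

/-- The `k`-space of ad⁰-cocycles vanishing on `I_P`. -/
def unrCocycles : Submodule k (GQ → Module.End k ρbar.V) where
  carrier := {c | IsAdCocycle ρbar c ∧ ∀ ι ∈ P.inertiaSubgroupIn ℚ, c ι = 0}
  add_mem' := fun {a b} ha hb =>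
    ⟨isAdCocycle_add ha.1 hb.1, fun ι hι => by
      rw [Pi.add_apply, ha.2 ι hι, hb.2 ι hι, add_zero]⟩
  zero_mem' := ⟨isAdCocycle_zero, fun _ _ => rfl⟩
  smul_mem' := fun r a ha =>
    ⟨isAdCocycle_smul ha.1 r, fun ι hι => by rw [Pi.smul_apply, ha.2 ι hι, smul_zero]⟩

variable {ρbar P}

theorem mem_unrCocycles {c : GQ → Module.End k ρbar.V} :
    c ∈ unrCocycles ρbar P ↔ IsAdCocycle ρbar c ∧ ∀ ι ∈ P.inertiaSubgroupIn ℚ, c ι = 0 :=
  Iff.rfl

/-- The coboundary of an `I_P`-invariant endomorphism vanishes on `I_P`. -/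
theorem cob_mem_unrCocycles {x : Module.End k ρbar.V}
    (hx : ∀ ι ∈ P.inertiaSubgroupIn ℚ, ρbar.ρ ι * x * ρbar.ρ ι⁻¹ = x) :
    cob ρbar x ∈ unrCocycles ρbar P :=
  ⟨isAdCocycle_cob ρbar x, fun ι hι => by rw [cob_apply, hx ι hι, sub_self]⟩

variable (ρbar P)

/-- Evaluation of unramified cocycles at `φ ∈ D_P`, with values in `H⁰(I_P, ad⁰ρ̄)`. -/
def evalAt (φ : GQ) (hφ : φ ∈ P.decompositionSubgroup ℚ) :
    unrCocycles ρbar P →ₗ[k] adInv ρbar (P.inertiaSubgroupIn ℚ) where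
  toFun c := ⟨c.1 φ, apply_mem_adInv c.2.1 c.2.2 hφ⟩
  map_add' := fun _ _ => rfl
  map_smul' := fun _ _ => rfl

/-- `Ad φ − 1` on `H⁰(I_P, ad⁰ρ̄)`, for `φ ∈ D_P`. -/
def frobSubOne (φ : GQ) (hφ : φ ∈ P.decompositionSubgroup ℚ) :
    adInv ρbar (P.inertiaSubgroupIn ℚ) →ₗ[k] adInv ρbar (P.inertiaSubgroupIn ℚ) where
  toFun x := ⟨cob ρbar x.1 φ,
    apply_mem_adInv (cob_mem_unrCocycles x.2.2).1 (cob_mem_unrCocycles x.2.2).2 hφ⟩
  map_add' := fun a b => by
    apply Subtype.ext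
    show cob ρbar (a.1 + b.1) φ = cob ρbar a.1 φ + cob ρbar b.1 φ
    rw [cob_add]
    rfl
  map_smul' := fun r a => by
    apply Subtype.ext
    show cob ρbar (r • a.1) φ = r • cob ρbar a.1 φ
    rw [cob_smul]
    rfl

variable {ρbar P}

/-- The kernel of `Ad φ − 1` on `H⁰(I_P, ad⁰ρ̄)` is `H⁰(D_P, ad⁰ρ̄)`. -/
theorem finrank_ker_frobSubOne_le {q : ℕ} (hq : q.Prime) (hP : P.LiesOverPrime q) {φ : GQ}
    (hφ : P.IsFrobeniusAt φ q) :
    Module.finrank k (LinearMap.ker (frobSubOne ρbar P φ hφ.mem_decompositionSubgroup)) ≤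
      Module.finrank k (adInv ρbar (P.decompositionSubgroup ℚ)) := by
  let j : LinearMap.ker (frobSubOne ρbar P φ hφ.mem_decompositionSubgroup) →ₗ[k]
      adInv ρbar (P.decompositionSubgroup ℚ) :=
    { toFun := fun x => ⟨x.1.1, x.1.2.1, fun σ hσ => by
        have hx : frobSubOne ρbar P φ hφ.mem_decompositionSubgroup x.1 = 0 := x.2
        have hx' : cob ρbar x.1.1 φ = 0 := congrArg Subtype.val hx
        rw [cob_apply, sub_eq_zero] at hx'
        exact conj_eq_of_mem_decomposition hq hP hφ x.1.2.2 hx' hσ⟩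
      map_add' := fun _ _ => rfl
      map_smul' := fun _ _ => rfl }
  have hj : Function.Injective j := by
    intro a b hab
    apply Subtype.ext
    apply Subtype.ext
    have h1 : (j a).1 = (j b).1 := congrArg Subtype.val hab
    exact h1
  exact LinearMap.finrank_le_finrank_of_injective hj

/-- **LOC-MIN-B, unramified classes.**  There is a `k`-space `Λ` of functions with
`dim Λ ≤ h⁰(D_P, ad⁰ρ̄)` such that every ad⁰-cocycle which is a coboundary on the inertia group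
`I_P` is, on `D_P`, cohomologous to an element of `Λ`. -/
theorem exists_unramified_space {q : ℕ} (hq : q.Prime) (hP : P.LiesOverPrime q) {φ : GQ}
    (hφ : P.IsFrobeniusAt φ q) :
    ∃ Λ : Submodule k (GQ → Module.End k ρbar.V), Module.Finite k Λ ∧
      Module.finrank k Λ ≤ Module.finrank k (adInv ρbar (P.decompositionSubgroup ℚ)) ∧
      ∀ c : GQ → Module.End k ρbar.V, IsAdCocycle ρbar c →
        IsAdCoboundaryOn ρbar (P.inertiaSubgroupIn ℚ) c →
        ∃ t ∈ Λ, IsAdCoboundaryOn ρbar (P.decompositionSubgroup ℚ) (c - t) := by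
  have hφD := hφ.mem_decompositionSubgroup
  let T := frobSubOne ρbar P φ hφD
  let ev := evalAt ρbar P φ hφD
  let f : unrCocycles ρbar P →ₗ[k] (adInv ρbar (P.inertiaSubgroupIn ℚ) ⧸ LinearMap.range T) :=
    (LinearMap.range T).mkQ ∘ₗ ev
  obtain ⟨g, hg⟩ := LinearMap.exists_rightInverse_of_surjective f.rangeRestrict
    (LinearMap.range_rangeRestrict f)
  refine ⟨LinearMap.range ((unrCocycles ρbar P).subtype ∘ₗ g), ?_, ?_, ?_⟩
  · infer_instance
  · calc Module.finrank k (LinearMap.range ((unrCocycles ρbar P).subtype ∘ₗ g))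
        ≤ Module.finrank k (LinearMap.range f) := LinearMap.finrank_range_le _
      _ ≤ Module.finrank k (adInv ρbar (P.inertiaSubgroupIn ℚ) ⧸ LinearMap.range T) :=
          Submodule.finrank_le _
      _ = Module.finrank k (LinearMap.ker T) := by
          have h1 := Submodule.finrank_quotient_add_finrank (LinearMap.range T)
          have h2 := LinearMap.finrank_range_add_finrank_ker T
          omega
      _ ≤ Module.finrank k (adInv ρbar (P.decompositionSubgroup ℚ)) :=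
          finrank_ker_frobSubOne_le hq hP hφ
  · rintro c hc ⟨m, hm⟩
    let c' : unrCocycles ρbar P := ⟨c - cob ρbar m, isAdCocycle_sub hc (isAdCocycle_cob ρbar m),
      fun ι hι => by rw [Pi.sub_apply, hm ι hι, cob_apply, sub_self]⟩
    let r : LinearMap.range f := f.rangeRestrict c'
    refine ⟨((g r : unrCocycles ρbar P) : GQ → Module.End k ρbar.V), ⟨r, rfl⟩, ?_⟩
    have h1 : f (c' - g r) = 0 := by
      rw [map_sub, sub_eq_zero]
      have := congrArg Subtype.val (LinearMap.congr_fun hg r)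
      exact this.symm
    have h2 : ev (c' - g r) ∈ LinearMap.range T := (Submodule.Quotient.mk_eq_zero _).mp h1
    obtain ⟨u, hu⟩ := h2
    have hu' : cob ρbar u.1 φ = c φ - cob ρbar m φ - (g r).1 φ := congrArg Subtype.val hu
    have hcu : cob ρbar u.1 ∈ unrCocycles ρbar P := cob_mem_unrCocycles u.2.2
    have hmem : ((c' - g r : unrCocycles ρbar P) : GQ → Module.End k ρbar.V) - cob ρbar u.1 ∈
        unrCocycles ρbar P := Submodule.sub_mem _ (c' - g r).2 hcu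
    refine ⟨m + u.1, fun σ hσ => ?_⟩
    have hz := eq_zero_on_decomposition hq hP hφ hmem.1 hmem.2 (by
      show c φ - cob ρbar m φ - (g r).1 φ - cob ρbar u.1 φ = 0
      rw [hu', sub_self]) hσ
    have hz' : c σ - cob ρbar m σ - (g r).1 σ - cob ρbar u.1 σ = 0 := hz
    show c σ - (g r).1 σ = ρbar.ρ σ * (m + u.1) * ρbar.ρ σ⁻¹ - (m + u.1)
    have h3 : ρbar.ρ σ * (m + u.1) * ρbar.ρ σ⁻¹ - (m + u.1) = cob ρbar m σ + cob ρbar u.1 σ := by
      rw [cob_apply, cob_apply, conj_add]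
      abel
    rw [h3]
    have h4 : c σ - (g r).1 σ =
        (c σ - cob ρbar m σ - (g r).1 σ - cob ρbar u.1 σ) + (cob ρbar m σ + cob ρbar u.1 σ) := by
      abel
    rw [h4, hz', zero_add]

/-- **LOC-MIN-B, local bound.**  If every ad⁰-cocycle of local type `Ty` is a coboundary on the
inertia group `I_P`, then the local bound with defect `0` holds at `P`. -/
theorem localBoundAt_zero_of_frobenius {q : ℕ} (hq : q.Prime) (hP : P.LiesOverPrime q) {φ : GQ}
    (hφ : P.IsFrobeniusAt φ q) (Ty : GaloisRepAdic (DualNumber k) → Prop)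
    (h : ∀ c : GQ → Module.End k ρbar.V, IsAdCocycle ρbar c →
      (∃ ρ' : GaloisRepAdic (DualNumber k), IsLiftOf ρbar c ρ' ∧ Ty ρ') →
      IsAdCoboundaryOn ρbar (P.inertiaSubgroupIn ℚ) c) :
    LocalBoundAt ρbar P Ty 0 := by
  obtain ⟨Λ, h1, h2, h3⟩ := exists_unramified_space (ρbar := ρbar) hq hP hφ
  exact ⟨Λ, h1, h2, fun c hc hTy => h3 c hc (h c hc hTy)⟩

end bound

end Fermat.Agent.S56.H606

end
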