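import Fermat.Agent.S56.RQ.Spec
import Fermat.Agent.S56.H606.Gen

/-!
# S56 / REC-Q leaf GEN (helper606): `RQ.GenStatement`

Adapter: the frozen leaf `Fermat.Agent.S56.RQ.GenStatement` is the landed
`exists_frobenius_pow_mul_inertia` (`H606/Gen.lean`).
-/

set_option autoImplicit false
set_option linter.style.haveILetI false

namespace Fermat.Agent.S56.H606

open Fermat.Agent.S56

/-- **REC-Q, leaf GEN**: modulo any finite level, the decomposition group is generated by a
Frobenius element and the inertia group. -/
theorem rqGen : Fermat.Agent.S56.RQ.GenStatement := by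
  intro q P φ hq hP hφ L hL σ hσ
  haveI := hL
  obtain ⟨n, ι, hι, h⟩ := exists_frobenius_pow_mul_inertia hq hP L hφ hσ
  exact ⟨n, ι, hι, h⟩

end Fermat.Agent.S56.H606
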